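import Fermat.Agent.LT.T6.H559.EllUp

/-!
# Row LT, tower T6, leaf T6.28 (ArchEllId) — THE ELLIPTIC IDENTITY (helper559, OFF-MAIN)

`Φ` = profile of `φ` (`φ = Φ ∘ ρ_ℂ`), continuous, zero beyond `R`; `Ψ(X) = ∫_X^∞ Φ`.
Profiles downstairs, WRITTEN OUT (`X_v = √((ρ+1+v²)/2)`):

* `g0_559 Φ ρ = ∫_ℝ Φ(X_v)/X_v dv`                         (weight `0`),
* `G1_559 Φ ρ = (1/√2) ∫_ℝ [Φ(X_v)/X_v² + Ψ(X_v)/X_v³] dv`  (weight `±1`, `G₁ = g₁/√(ρ+1)`).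

(They are the Abel inverses of `4π Ψ(√((r+1)/2))` and of `4π Ψ(√((r+1)/2)) / √(r+1)`.)

## Main results

* `ellI0_eq559`  : `∫_0^∞ g₀(1 + 2 sin²θ sinh²τ) sinh τ dτ = ∫_ℝ √2 cosh x Ψ(cosh x)/(cosh²x - cos²θ) dx`
* `ellI1_eq559`  : `∫_0^∞ G₁(1 + 2 sin²θ sinh²τ) sinh τ dτ = ∫_ℝ Ψ(cosh x)/(cosh²x - cos²θ) dx`
* `ellUp_eq559`  : the `(b, τ)`-integral upstairs `= ∫_ℝ Ψ(cosh x)/(4 (cosh x - cos θ)) dx`
* `ell_identity559` : `I₀ + √2 cos θ · I₁ = 4 √2 · U`   (for `sin θ ≠ 0`).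
-/

set_option autoImplicit false

open MeasureTheory Set Real Filter Topology

noncomputable section

namespace Fermat.Agent.LT.T6.H559

/-- Weight `0` profile downstairs. -/
def g0_559 (Φ : ℝ → ℂ) (ρ : ℝ) : ℂ := ∫ v : ℝ, Φ (xv559 ρ v) / (xv559 ρ v : ℂ)

/-- Weight `±1` profile downstairs (`G₁ = g₁ / √(ρ + 1)`). -/
def G1_559 (Φ : ℝ → ℂ) (ρ : ℝ) : ℂ :=
  (1 / (Real.sqrt 2 : ℂ)) * ∫ v : ℝ, (Φ (xv559 ρ v) / (xv559 ρ v : ℂ) ^ 2
    + tail559 Φ (xv559 ρ v) / (xv559 ρ v : ℂ) ^ 3)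

/-- `∫_0^∞ g₀(1 + 2 sin²θ sinh²τ) sinh τ dτ`. -/
def ellI0_559 (Φ : ℝ → ℂ) (θ : ℝ) : ℂ :=
  ∫ τ in Ioi (0 : ℝ), g0_559 Φ (1 + 2 * sin θ ^ 2 * sinh τ ^ 2) * (sinh τ : ℂ)

/-- `∫_0^∞ G₁(1 + 2 sin²θ sinh²τ) sinh τ dτ`. -/
def ellI1_559 (Φ : ℝ → ℂ) (θ : ℝ) : ℂ :=
  ∫ τ in Ioi (0 : ℝ), G1_559 Φ (1 + 2 * sin θ ^ 2 * sinh τ ^ 2) * (sinh τ : ℂ)

/-- The auxiliary profile `V₁(X) = Φ(X)/X + Ψ(X)/X²` (with `X` replaced by `max X 1`, which
changes nothing on `X ≥ 1`). -/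
def v1_559 (Φ : ℝ → ℂ) (X : ℝ) : ℂ :=
  Φ X / ((max X 1 : ℝ) : ℂ) + tail559 Φ X / ((max X 1 : ℝ) : ℂ) ^ 2

theorem v1_profile559 {Φ : ℝ → ℂ} {R : ℝ} (hΦ : IsProfile559 Φ R) : IsProfile559 (v1_559 Φ) R := by
  constructor
  · unfold v1_559
    have hmax : Continuous fun X : ℝ => ((max X 1 : ℝ) : ℂ) :=
      Complex.continuous_ofReal.comp (continuous_id.max continuous_const)
    have hne : ∀ X : ℝ, ((max X 1 : ℝ) : ℂ) ≠ 0 := by
      intro X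
      have : (0 : ℝ) < max X 1 := lt_of_lt_of_le one_pos (le_max_right _ _)
      exact_mod_cast this.ne'
    apply Continuous.add
    · exact hΦ.cont.div hmax hne
    · exact hΦ.tail_continuous.div (hmax.pow 2) (fun X => pow_ne_zero 2 (hne X))
  · intro x hx
    simp [v1_559, hΦ.zero x hx, hΦ.tail_zero hx]

theorem v1_eq559 (Φ : ℝ → ℂ) {X : ℝ} (hX : 1 ≤ X) :
    v1_559 Φ X = Φ X / (X : ℂ) + tail559 Φ X / (X : ℂ) ^ 2 := by
  unfold v1_559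
  rw [max_eq_left hX]

theorem xv_ge_one559 {ρ : ℝ} (hρ : 1 ≤ ρ) (v : ℝ) : 1 ≤ xv559 ρ v := by
  unfold xv559
  rw [show (1 : ℝ) = Real.sqrt 1 by simp]
  apply Real.sqrt_le_sqrt
  nlinarith [sq_nonneg v]

theorem G1_eq_gOf559 (Φ : ℝ → ℂ) {ρ : ℝ} (hρ : 1 ≤ ρ) :
    G1_559 Φ ρ = (1 / (Real.sqrt 2 : ℂ)) * gOf559 (v1_559 Φ) ρ := by
  unfold G1_559 gOf559
  congr 1
  apply integral_congr_ae
  filter_upwards with v
  have h1 := xv_ge_one559 hρ v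
  have hne : (xv559 ρ v : ℂ) ≠ 0 := by
    have : (0 : ℝ) < xv559 ρ v := lt_of_lt_of_le one_pos h1
    exact_mod_cast this.ne'
  rw [v1_eq559 Φ h1]
  field_simp

/-- The tail of `V₁`: `∫_c^∞ (Φ/X + Ψ/X²) = Ψ(c)/c` for `c ≥ 1`. -/
theorem tail_v1_559 {Φ : ℝ → ℂ} {R : ℝ} (hΦ : IsProfile559 Φ R) {c : ℝ} (hc : 1 ≤ c) :
    tail559 (v1_559 Φ) c = tail559 Φ c / (c : ℂ) := by
  have hV := v1_profile559 hΦ
  have hderiv : ∀ x ∈ Ici c, HasDerivAt (fun X : ℝ => -(tail559 Φ X / (X : ℂ)))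
      (v1_559 Φ x) x := by
    intro x hx
    have hx1 : (1 : ℝ) ≤ x := le_trans hc hx
    have hx0 : (x : ℂ) ≠ 0 := by
      have : (0 : ℝ) < x := lt_of_lt_of_le one_pos hx1
      exact_mod_cast this.ne'
    have h1 := hΦ.tail_hasDerivAt x
    have h2 : HasDerivAt (fun X : ℝ => (X : ℂ)) 1 x := by
      simpa using (hasDerivAt_id x).ofReal_comp
    have h3 : HasDerivAt (fun X : ℝ => -(tail559 Φ X / (X : ℂ)))
        (-((-Φ x * (x : ℂ) - tail559 Φ x * 1) / (x : ℂ) ^ 2)) x := (h1.div h2 hx0).neg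
    have e : -((-Φ x * (x : ℂ) - tail559 Φ x * 1) / (x : ℂ) ^ 2)
        = Φ x / (x : ℂ) + tail559 Φ x / (x : ℂ) ^ 2 := by
      field_simp
      ring
    rw [v1_eq559 Φ hx1, ← e]
    exact h3
  have hlim : Tendsto (fun X : ℝ => -(tail559 Φ X / (X : ℂ))) atTop (𝓝 0) := by
    apply tendsto_const_nhds.congr'
    filter_upwards [eventually_ge_atTop R] with X hX
    simp [hΦ.tail_zero hX]
  have key := integral_Ioi_of_hasDerivAt_of_tendsto' hderiv (hV.integrableOn_Ioi c) hlim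
  unfold tail559 at key ⊢
  rw [key]
  simp

theorem ellI0_eq559 {Φ : ℝ → ℂ} {R : ℝ} (hΦ : IsProfile559 Φ R) (θ : ℝ) (hθ : sin θ ≠ 0) :
    ellI0_559 Φ θ
      = ∫ x : ℝ, ((Real.sqrt 2 * cosh x / (cosh x ^ 2 - cos θ ^ 2) : ℝ) : ℂ)
          * tail559 Φ (cosh x) :=
  ellDown_eq559 hΦ θ hθ

theorem ellI1_eq559 {Φ : ℝ → ℂ} {R : ℝ} (hΦ : IsProfile559 Φ R) (θ : ℝ) (hθ : sin θ ≠ 0) :
    ellI1_559 Φ θ
      = ∫ x : ℝ, ((1 / (cosh x ^ 2 - cos θ ^ 2) : ℝ) : ℂ) * tail559 Φ (cosh x) := by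
  have h1 : ellI1_559 Φ θ = (1 / (Real.sqrt 2 : ℂ)) * ellDown559 (v1_559 Φ) θ := by
    unfold ellI1_559 ellDown559
    rw [← integral_const_mul]
    apply setIntegral_congr_fun measurableSet_Ioi
    intro τ _
    have hρ : (1 : ℝ) ≤ 1 + 2 * sin θ ^ 2 * sinh τ ^ 2 := by
      have := mul_nonneg (mul_nonneg zero_le_two (sq_nonneg (sin θ))) (sq_nonneg (sinh τ))
      linarith
    beta_reduce
    rw [G1_eq_gOf559 Φ hρ]
    ring
  rw [h1, ellDown_eq559 (v1_profile559 hΦ) θ hθ, ← integral_const_mul]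
  apply integral_congr_ae
  filter_upwards with x
  have hc : (1 : ℝ) ≤ cosh x := one_le_cosh x
  have ha : 0 < cosh x ^ 2 - cos θ ^ 2 := apos559 θ x hθ
  rw [tail_v1_559 hΦ hc]
  have h2 : (Real.sqrt 2 : ℂ) ≠ 0 := by
    have : (0 : ℝ) < Real.sqrt 2 := by positivity
    exact_mod_cast this.ne'
  have hc' : ((cosh x : ℝ) : ℂ) ≠ 0 := by exact_mod_cast (cosh_pos x).ne'
  have ha' : ((cosh x ^ 2 - cos θ ^ 2 : ℝ) : ℂ) ≠ 0 := by exact_mod_cast ha.ne'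
  push_cast at hc' ha' ⊢
  field_simp

/-- A continuous kernel times `Ψ ∘ cosh` is integrable on `ℝ`. -/
theorem integrable_kernel559 {Φ : ℝ → ℂ} {R : ℝ} (hΦ : IsProfile559 Φ R) {κ : ℝ → ℝ}
    (hκ : Continuous κ) :
    Integrable (fun x : ℝ => ((κ x : ℝ) : ℂ) * tail559 Φ (cosh x)) := by
  apply Continuous.integrable_of_hasCompactSupport
  · exact (Complex.continuous_ofReal.comp hκ).mul (hΦ.tail_continuous.comp continuous_cosh)
  · apply HasCompactSupport.of_support_subset_isCompact (isCompact_Icc (a := -|R|) (b := |R|))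
    intro x hx
    rw [Function.mem_support] at hx
    by_contra hmem
    apply hx
    have hbig : R ≤ cosh x := by
      have h1 := abs_lt_cosh559 x
      have h2 : |R| < |x| := by
        by_contra h
        rw [not_lt] at h
        exact hmem ⟨(abs_le.1 h).1, (abs_le.1 h).2⟩
      have := le_abs_self R
      linarith
    rw [hΦ.tail_zero hbig, mul_zero]

/-- **THE ELLIPTIC IDENTITY** (archimedean matching `ℂ/ℝ` on the elliptic set):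
`I₀(θ) + √2 cos θ · I₁(θ) = 4 √2 · U(θ)` for `sin θ ≠ 0`. -/
theorem ell_identity559 {Φ : ℝ → ℂ} {R : ℝ} (hΦ : IsProfile559 Φ R) (θ : ℝ) (hθ : sin θ ≠ 0) :
    ellI0_559 Φ θ + ((Real.sqrt 2 * cos θ : ℝ) : ℂ) * ellI1_559 Φ θ
      = ((4 * Real.sqrt 2 : ℝ) : ℂ) * ellUp559 Φ θ := by
  have hs : sin (θ / 2) ≠ 0 := by
    intro h0
    apply hθ
    have := sin_two_mul (θ / 2)
    rw [show 2 * (θ / 2) = θ by ring] at this
    rw [this, h0]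
    ring
  have hapos : ∀ x : ℝ, 0 < cosh x ^ 2 - cos θ ^ 2 := fun x => apos559 θ x hθ
  have hbpos : ∀ x : ℝ, 0 < cosh x - cos θ := fun x =>
    lt_of_lt_of_le (by positivity) (cosh_sub_cos_ge559 θ x)
  rw [ellI0_eq559 hΦ θ hθ, ellI1_eq559 hΦ θ hθ, ellUp_eq559 hΦ θ hs,
    ← integral_const_mul, ← integral_const_mul, ← integral_add]
  · apply integral_congr_ae
    filter_upwards with x
    have ha' : ((cosh x ^ 2 - cos θ ^ 2 : ℝ) : ℂ) ≠ 0 := by exact_mod_cast (hapos x).ne'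
    have hb' : ((cosh x - cos θ : ℝ) : ℂ) ≠ 0 := by exact_mod_cast (hbpos x).ne'
    have hfac : ((cosh x ^ 2 - cos θ ^ 2 : ℝ) : ℂ)
        = ((cosh x - cos θ : ℝ) : ℂ) * ((cosh x + cos θ : ℝ) : ℂ) := by
      push_cast
      ring
    have hc' : ((cosh x + cos θ : ℝ) : ℂ) ≠ 0 := by
      intro h
      rw [hfac, h, mul_zero] at ha'
      exact ha' rfl
    rw [Complex.ofReal_div, Complex.ofReal_div, Complex.ofReal_div, hfac]
    push_cast at hb' hc' ⊢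
    field_simp
  · apply integrable_kernel559 hΦ
    exact (by fun_prop : Continuous fun x : ℝ => Real.sqrt 2 * cosh x).div
      (by fun_prop) (fun x => (hapos x).ne')
  · have := integrable_kernel559 hΦ
      (κ := fun x => Real.sqrt 2 * cos θ * (1 / (cosh x ^ 2 - cos θ ^ 2)))
      ((continuous_const).mul ((continuous_const).div (by fun_prop) (fun x => (hapos x).ne')))
    refine this.congr ?_
    filter_upwards with x
    push_cast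
    ring

end Fermat.Agent.LT.T6.H559
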