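import Fermat.Agent.LT.T6.H559.EllTools

/-!
# Row LT, tower T6, leaf T6.28 (ArchEllId) — the DOWNSTAIRS side (helper559, OFF-MAIN)

For a profile `V` (continuous, zero beyond `R`) and `g_V(ρ) = ∫_ℝ V(X_v)/X_v dv`,
`X_v = √((ρ+1+v²)/2)`:
`∫_0^∞ g_V(1 + 2 sin²θ sinh²τ) sinh τ dτ = ∫_ℝ √2 cosh x · (∫_{cosh x}^∞ V) / (cosh²x - cos²θ) dx`.
-/

set_option autoImplicit false

open MeasureTheory Set Real Filter Topology

noncomputable section

namespace Fermat.Agent.LT.T6.H559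

/-- `X_v(ρ) = √((ρ + 1 + v²)/2)`. -/
def xv559 (ρ v : ℝ) : ℝ := Real.sqrt ((ρ + 1 + v ^ 2) / 2)

/-- The profile transform `g_V(ρ) = ∫_ℝ V(X_v)/X_v dv`. -/
def gOf559 (V : ℝ → ℂ) (ρ : ℝ) : ℂ := ∫ v : ℝ, V (xv559 ρ v) / (xv559 ρ v : ℂ)

/-- The elliptic integral downstairs, `∫_0^∞ g_V(1 + 2 sin²θ sinh²τ) sinh τ dτ`. -/
def ellDown559 (V : ℝ → ℂ) (θ : ℝ) : ℂ :=
  ∫ τ in Ioi (0 : ℝ), gOf559 V (1 + 2 * sin θ ^ 2 * sinh τ ^ 2) * (sinh τ : ℂ)

/-- `√(cos²θ + u² (cosh²x - cos²θ))`. -/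
def xd559 (θ u x : ℝ) : ℝ := Real.sqrt (cos θ ^ 2 + u ^ 2 * (cosh x ^ 2 - cos θ ^ 2))

theorem cosh_image_Ioi559 : cosh '' Ioi (0 : ℝ) = Ioi 1 := by
  ext y
  constructor
  · rintro ⟨x, hx, rfl⟩
    exact one_lt_cosh.2 (ne_of_gt hx)
  · intro hy
    exact ⟨arcosh y, arcosh_pos hy, cosh_arcosh (le_of_lt hy)⟩

theorem cosh_injOn_Ioi559 : InjOn cosh (Ioi (0 : ℝ)) :=
  (cosh_strictMonoOn.mono Ioi_subset_Ici_self).injOn

/-- Substitution `u = cosh τ`. -/
theorem subst_cosh559 (g : ℝ → ℂ) :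
    ∫ u in Ioi (1 : ℝ), g u = ∫ τ in Ioi (0 : ℝ), g (cosh τ) * (sinh τ : ℂ) := by
  have key := integral_image_eq_integral_abs_deriv_smul measurableSet_Ioi
    (fun x _ => (hasDerivAt_cosh x).hasDerivWithinAt) cosh_injOn_Ioi559 g
  rw [cosh_image_Ioi559] at key
  rw [key]
  apply setIntegral_congr_fun measurableSet_Ioi
  intro τ hτ
  have h : 0 < sinh τ := sinh_pos_iff.2 hτ
  simp only [abs_of_pos h, Complex.real_smul]
  ring

theorem amin559 (θ x : ℝ) : sin θ ^ 2 ≤ cosh x ^ 2 - cos θ ^ 2 := by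
  have h1 : 1 ≤ cosh x := one_le_cosh x
  have h2 := sin_sq_add_cos_sq θ
  nlinarith

theorem apos559 (θ x : ℝ) (hθ : sin θ ≠ 0) : 0 < cosh x ^ 2 - cos θ ^ 2 :=
  lt_of_lt_of_le (by positivity) (amin559 θ x)

theorem xd_sq559 (θ u x : ℝ) :
    xd559 θ u x ^ 2 = cos θ ^ 2 + u ^ 2 * (cosh x ^ 2 - cos θ ^ 2) := by
  unfold xd559
  apply Real.sq_sqrt
  have := amin559 θ x
  have h3 : 0 ≤ u ^ 2 * (cosh x ^ 2 - cos θ ^ 2) :=
    mul_nonneg (sq_nonneg u) (le_trans (sq_nonneg _) this)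
  nlinarith [sq_nonneg (cos θ)]

theorem xd_nonneg559 (θ u x : ℝ) : 0 ≤ xd559 θ u x := Real.sqrt_nonneg _

theorem xd_ge_cosh559 (θ u x : ℝ) (hu : 1 ≤ u) : cosh x ≤ xd559 θ u x := by
  unfold xd559
  apply Real.le_sqrt_of_sq_le
  have := amin559 θ x
  have ha : 0 ≤ cosh x ^ 2 - cos θ ^ 2 := le_trans (sq_nonneg _) this
  have hu2 : 1 ≤ u ^ 2 := by nlinarith
  nlinarith [mul_nonneg (sub_nonneg.2 hu2) ha]

theorem xd_pos559 (θ u x : ℝ) (hu : 1 ≤ u) : 0 < xd559 θ u x :=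
  lt_of_lt_of_le (cosh_pos x) (xd_ge_cosh559 θ u x hu)

theorem xd_ge_sin559 (θ u x : ℝ) (_hu : 0 ≤ u) : u * |sin θ| ≤ xd559 θ u x := by
  unfold xd559
  apply Real.le_sqrt_of_sq_le
  have := amin559 θ x
  have h1 : (u * |sin θ|) ^ 2 = u ^ 2 * sin θ ^ 2 := by rw [mul_pow, sq_abs]
  rw [h1]
  nlinarith [sq_nonneg (cos θ), mul_le_mul_of_nonneg_left this (sq_nonneg u)]

theorem xd_one559 (θ x : ℝ) : xd559 θ 1 x = cosh x := by
  unfold xd559
  rw [show cos θ ^ 2 + 1 ^ 2 * (cosh x ^ 2 - cos θ ^ 2) = cosh x ^ 2 by ring]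
  exact Real.sqrt_sq (cosh_pos x).le

theorem xd_continuous559 (θ : ℝ) : Continuous (fun p : ℝ × ℝ => xd559 θ p.1 p.2) := by
  unfold xd559
  fun_prop

theorem abs_lt_cosh559 (x : ℝ) : |x| < cosh x := by
  have h1 : |x| ≤ sinh |x| := self_le_sinh_iff.2 (abs_nonneg x)
  have h2 : sinh |x| < cosh |x| := sinh_lt_cosh _
  rw [cosh_abs] at h2
  exact lt_of_le_of_lt h1 h2

/-- The ray substitution `v = √2 u sinh x` in `g_V`. -/
theorem gOf_ray559 (V : ℝ → ℂ) (θ u : ℝ) (hu : 0 < u) :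
    gOf559 V (1 + 2 * sin θ ^ 2 * (u ^ 2 - 1))
      = ∫ x : ℝ, ((Real.sqrt 2 * u * cosh x : ℝ) : ℂ)
          * (V (xd559 θ u x) / (xd559 θ u x : ℂ)) := by
  have hc : 0 < Real.sqrt 2 * u := by positivity
  have hinj : InjOn (fun x : ℝ => Real.sqrt 2 * u * sinh x) univ := by
    intro x _ y _ hxy
    exact sinh_injective (mul_left_cancel₀ hc.ne' hxy)
  have himg : (fun x : ℝ => Real.sqrt 2 * u * sinh x) '' univ = univ := by
    rw [image_univ]
    apply Function.Surjective.range_eq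
    intro y
    obtain ⟨x, hx⟩ := sinh_surjective (y / (Real.sqrt 2 * u))
    refine ⟨x, ?_⟩
    show Real.sqrt 2 * u * sinh x = y
    rw [hx]
    field_simp
  have key := integral_image_eq_integral_abs_deriv_smul MeasurableSet.univ
    (fun x _ => ((hasDerivAt_sinh x).const_mul (Real.sqrt 2 * u)).hasDerivWithinAt) hinj
    (fun v => V (xv559 (1 + 2 * sin θ ^ 2 * (u ^ 2 - 1)) v)
      / (xv559 (1 + 2 * sin θ ^ 2 * (u ^ 2 - 1)) v : ℂ))
  rw [himg] at key
  simp only [Measure.restrict_univ] at key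
  unfold gOf559
  rw [key]
  apply integral_congr_ae
  filter_upwards with x
  have hxv : xv559 (1 + 2 * sin θ ^ 2 * (u ^ 2 - 1)) (Real.sqrt 2 * u * sinh x) = xd559 θ u x := by
    unfold xv559 xd559
    congr 1
    have h2 : Real.sqrt 2 ^ 2 = 2 := Real.sq_sqrt (by norm_num)
    have h3 := sin_sq_add_cos_sq θ
    have h4 := cosh_sq x
    have h5 : (Real.sqrt 2 * u * sinh x) ^ 2 = 2 * u ^ 2 * sinh x ^ 2 := by
      rw [mul_pow, mul_pow, h2]
    rw [h5]
    have h6 : sin θ ^ 2 = 1 - cos θ ^ 2 := by linarith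
    have h7 : sinh x ^ 2 = cosh x ^ 2 - 1 := by linarith
    rw [h6, h7]
    ring
  rw [hxv]
  have habs : |Real.sqrt 2 * u * cosh x| = Real.sqrt 2 * u * cosh x :=
    abs_of_pos (mul_pos hc (cosh_pos x))
  simp only [habs, Complex.real_smul]

/-- The inner integral along a ray is exact. -/
theorem inner_down559 (V : ℝ → ℂ) (θ x : ℝ) (hθ : sin θ ≠ 0) :
    ∫ u in Ioi (1 : ℝ), ((Real.sqrt 2 * u * cosh x : ℝ) : ℂ)
        * (V (xd559 θ u x) / (xd559 θ u x : ℂ))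
      = ((Real.sqrt 2 * cosh x / (cosh x ^ 2 - cos θ ^ 2) : ℝ) : ℂ) * tail559 V (cosh x) := by
  set a : ℝ := cosh x ^ 2 - cos θ ^ 2 with ha_def
  have ha : 0 < a := apos559 θ x hθ
  have hder : ∀ u ∈ Ioi (1 : ℝ),
      HasDerivWithinAt (fun u => xd559 θ u x) (a * u / xd559 θ u x) (Ioi 1) u := by
    intro u hu
    have hu1 : (1 : ℝ) ≤ u := le_of_lt hu
    have hpos : 0 < xd559 θ u x := xd_pos559 θ u x hu1
    have hne : cos θ ^ 2 + u ^ 2 * a ≠ 0 := by
      have := xd_sq559 θ u x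
      rw [← ha_def] at this
      rw [← this]
      positivity
    have h1 : HasDerivAt (fun u : ℝ => cos θ ^ 2 + u ^ 2 * a) (2 * u * a) u := by
      have := ((hasDerivAt_id u).pow 2 |>.mul_const a).const_add (cos θ ^ 2)
      simpa using this
    have h2 := h1.sqrt hne
    have h3 : 2 * u * a / (2 * Real.sqrt (cos θ ^ 2 + u ^ 2 * a)) = a * u / xd559 θ u x := by
      unfold xd559
      rw [← ha_def]
      field_simp
    rw [h3] at h2
    exact h2.hasDerivWithinAt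
  have hinj : InjOn (fun u => xd559 θ u x) (Ioi (1 : ℝ)) := by
    intro u hu v hv huv
    have hu1 : (1 : ℝ) < u := hu
    have hv1 : (1 : ℝ) < v := hv
    have h1 : xd559 θ u x ^ 2 = xd559 θ v x ^ 2 := by
      simp only at huv
      rw [huv]
    rw [xd_sq559, xd_sq559, ← ha_def] at h1
    have h2 : u ^ 2 = v ^ 2 := by
      have : u ^ 2 * a = v ^ 2 * a := by linarith
      exact mul_right_cancel₀ ha.ne' this
    exact (sq_eq_sq₀ (by linarith) (by linarith)).1 h2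
  have himg : (fun u => xd559 θ u x) '' Ioi (1 : ℝ) = Ioi (cosh x) := by
    ext y
    constructor
    · rintro ⟨u, hu, rfl⟩
      have hu1 : (1 : ℝ) < u := hu
      show cosh x < xd559 θ u x
      have h1 : cosh x ^ 2 < xd559 θ u x ^ 2 := by
        rw [xd_sq559, ← ha_def]
        have : 1 < u ^ 2 := by nlinarith
        nlinarith
      exact lt_of_pow_lt_pow_left₀ 2 (xd_nonneg559 θ u x) h1
    · intro hy
      have hy' : cosh x < y := hy
      have hy0 : 0 < y := lt_trans (cosh_pos x) hy'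
      have hyy : cosh x ^ 2 < y ^ 2 := by
        have := cosh_pos x
        nlinarith
      have hq : 1 < (y ^ 2 - cos θ ^ 2) / a := by
        rw [lt_div_iff₀ ha]
        linarith
      refine ⟨Real.sqrt ((y ^ 2 - cos θ ^ 2) / a), ?_, ?_⟩
      · show 1 < Real.sqrt ((y ^ 2 - cos θ ^ 2) / a)
        apply Real.lt_sqrt_of_sq_lt
        simpa using hq
      · show xd559 θ (Real.sqrt ((y ^ 2 - cos θ ^ 2) / a)) x = y
        unfold xd559
        rw [← ha_def, Real.sq_sqrt (by linarith)]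
        have : cos θ ^ 2 + (y ^ 2 - cos θ ^ 2) / a * a = y ^ 2 := by
          field_simp
          ring
        rw [this]
        exact Real.sqrt_sq hy0.le
  have key := integral_image_eq_integral_abs_deriv_smul measurableSet_Ioi hder hinj V
  rw [himg] at key
  unfold tail559
  rw [key, ← integral_const_mul]
  apply setIntegral_congr_fun measurableSet_Ioi
  intro u hu
  have hu1 : (1 : ℝ) < u := hu
  have hpos : 0 < xd559 θ u x := xd_pos559 θ u x hu1.le
  have habs : |a * u / xd559 θ u x| = a * u / xd559 θ u x :=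
    abs_of_pos (div_pos (mul_pos ha (by linarith)) hpos)
  simp only [habs, Complex.real_smul]
  have hX : (xd559 θ u x : ℂ) ≠ 0 := by exact_mod_cast hpos.ne'
  have ha' : (a : ℂ) ≠ 0 := by exact_mod_cast ha.ne'
  push_cast
  field_simp

/-- Integrability of the integrand of the downstairs side on `(1, ∞) × ℝ`. -/
theorem integrable_down559 {V : ℝ → ℂ} {R : ℝ} (hV : IsProfile559 V R) (θ : ℝ) (hθ : sin θ ≠ 0) :
    Integrable (Function.uncurry fun u x : ℝ => ((Real.sqrt 2 * u * cosh x : ℝ) : ℂ)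
        * (V (xd559 θ u x) / (xd559 θ u x : ℂ)))
      ((volume.restrict (Ioi (1 : ℝ))).prod (volume : Measure ℝ)) := by
  have hm : (volume.restrict (Ioi (1 : ℝ))).prod (volume : Measure ℝ)
      = (volume : Measure (ℝ × ℝ)).restrict (Ioi (1 : ℝ) ×ˢ (univ : Set ℝ)) := by
    rw [Measure.volume_eq_prod, ← Measure.prod_restrict, Measure.restrict_univ]
  rw [hm]
  set R' : ℝ := max R 1 with hR'
  have hs : 0 < |sin θ| := abs_pos.2 hθ
  have hS : IsClosed (Ici (1 : ℝ) ×ˢ (univ : Set ℝ)) := isClosed_Ici.prod isClosed_univ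
  have hK : IsCompact (Icc (1 : ℝ) (R' / |sin θ|) ×ˢ Icc (-R') R') :=
    isCompact_Icc.prod isCompact_Icc
  have hcont : ContinuousOn (Function.uncurry fun u x : ℝ => ((Real.sqrt 2 * u * cosh x : ℝ) : ℂ)
        * (V (xd559 θ u x) / (xd559 θ u x : ℂ))) (Ici (1 : ℝ) ×ˢ (univ : Set ℝ)) := by
    have hxc := xd_continuous559 θ
    apply ContinuousOn.mul
    · apply Continuous.continuousOn
      fun_prop
    · apply ContinuousOn.div
      · exact (hV.cont.comp hxc).continuousOn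
      · exact (Complex.continuous_ofReal.comp hxc).continuousOn
      · rintro ⟨u, x⟩ hp
        have hu : (1 : ℝ) ≤ u := hp.1
        have := xd_pos559 θ u x hu
        exact_mod_cast this.ne'
  have h0 : ∀ p ∈ Ici (1 : ℝ) ×ˢ (univ : Set ℝ), p ∉ Icc (1 : ℝ) (R' / |sin θ|) ×ˢ Icc (-R') R' →
      (Function.uncurry fun u x : ℝ => ((Real.sqrt 2 * u * cosh x : ℝ) : ℂ)
        * (V (xd559 θ u x) / (xd559 θ u x : ℂ))) p = 0 := by
    rintro ⟨u, x⟩ hp hpK
    have hu : (1 : ℝ) ≤ u := hp.1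
    have hbig : R ≤ xd559 θ u x := by
      by_contra hlt
      rw [not_le] at hlt
      apply hpK
      have hR'lt : xd559 θ u x < R' ∨ xd559 θ u x < 1 := by
        left; exact lt_of_lt_of_le hlt (le_max_left _ _)
      have hxR' : xd559 θ u x < R' := by
        rcases hR'lt with h | h
        · exact h
        · exact lt_of_lt_of_le h (le_max_right _ _)
      refine ⟨⟨hu, ?_⟩, ?_⟩
      · rw [le_div_iff₀ hs]
        exact le_trans (xd_ge_sin559 θ u x (by linarith)) hxR'.le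
      · have h1 : |x| < R' :=
          lt_trans (abs_lt_cosh559 x) (lt_of_le_of_lt (xd_ge_cosh559 θ u x hu) hxR')
        exact ⟨(abs_lt.1 h1).1.le, (abs_lt.1 h1).2.le⟩
    simp only [Function.uncurry, hV.zero _ hbig, zero_div, mul_zero]
  exact (integrableOn_prod559 hS hK hcont h0).mono_set
    (prod_mono Ioi_subset_Ici_self (subset_refl _))

/-- **The downstairs side.** -/
theorem ellDown_eq559 {V : ℝ → ℂ} {R : ℝ} (hV : IsProfile559 V R) (θ : ℝ) (hθ : sin θ ≠ 0) :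
    ellDown559 V θ
      = ∫ x : ℝ, ((Real.sqrt 2 * cosh x / (cosh x ^ 2 - cos θ ^ 2) : ℝ) : ℂ)
          * tail559 V (cosh x) := by
  unfold ellDown559
  have h1 : ∫ τ in Ioi (0 : ℝ), gOf559 V (1 + 2 * sin θ ^ 2 * sinh τ ^ 2) * (sinh τ : ℂ)
      = ∫ u in Ioi (1 : ℝ), gOf559 V (1 + 2 * sin θ ^ 2 * (u ^ 2 - 1)) := by
    rw [subst_cosh559]
    apply setIntegral_congr_fun measurableSet_Ioi
    intro τ _
    simp only
    rw [show cosh τ ^ 2 - 1 = sinh τ ^ 2 by rw [cosh_sq]; ring]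
  rw [h1]
  have h2 : ∫ u in Ioi (1 : ℝ), gOf559 V (1 + 2 * sin θ ^ 2 * (u ^ 2 - 1))
      = ∫ u in Ioi (1 : ℝ), ∫ x : ℝ, ((Real.sqrt 2 * u * cosh x : ℝ) : ℂ)
          * (V (xd559 θ u x) / (xd559 θ u x : ℂ)) := by
    apply setIntegral_congr_fun measurableSet_Ioi
    intro u hu
    have hu1 : (1 : ℝ) < u := hu
    exact gOf_ray559 V θ u (by linarith)
  rw [h2, integral_integral_swap (integrable_down559 hV θ hθ)]
  apply integral_congr_ae
  filter_upwards with x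
  exact inner_down559 V θ x hθ

end Fermat.Agent.LT.T6.H559
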