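import Mathlib

/-!
# Row LT, tower T6, leaf T6.28 (ArchEllId) — calculus tools (helper559, OFF-MAIN, Mathlib only)

Tail integrals of a continuous profile vanishing beyond `R`, the exact radial integral,
and integrability of continuous functions on a closed rectangle vanishing outside a compact set.
-/

set_option autoImplicit false

open MeasureTheory Set Real Filter Topology

noncomputable section

namespace Fermat.Agent.LT.T6.H559

/-- The tail integral `Ψ(X) = ∫_X^∞ Φ`. -/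
def tail559 (Φ : ℝ → ℂ) (X : ℝ) : ℂ := ∫ t in Ioi X, Φ t

/-- A profile: continuous and zero beyond `R`. -/
structure IsProfile559 (Φ : ℝ → ℂ) (R : ℝ) : Prop where
  cont : Continuous Φ
  zero : ∀ x, R ≤ x → Φ x = 0

theorem IsProfile559.integrableOn_Ioi {Φ : ℝ → ℂ} {R : ℝ} (h : IsProfile559 Φ R) (X : ℝ) :
    IntegrableOn Φ (Ioi X) := by
  have h1 : IntegrableOn Φ (Icc X (max X R)) :=
    h.cont.continuousOn.integrableOn_compact isCompact_Icc
  refine h1.of_forall_sdiff_eq_zero measurableSet_Ioi ?_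
  intro x hx
  apply h.zero
  have hx1 : X < x := hx.1
  have hx2 : ¬ (X ≤ x ∧ x ≤ max X R) := hx.2
  by_contra hlt
  exact hx2 ⟨hx1.le, le_trans (not_le.mp hlt).le (le_max_right _ _)⟩

theorem IsProfile559.tail_zero {Φ : ℝ → ℂ} {R : ℝ} (h : IsProfile559 Φ R) {X : ℝ} (hX : R ≤ X) :
    tail559 Φ X = 0 := by
  unfold tail559
  apply setIntegral_eq_zero_of_forall_eq_zero
  intro x hx
  exact h.zero x (hX.trans (le_of_lt hx))

theorem IsProfile559.tail_eq {Φ : ℝ → ℂ} {R : ℝ} (h : IsProfile559 Φ R) (a X : ℝ) :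
    tail559 Φ X = tail559 Φ a - ∫ t in a..X, Φ t := by
  unfold tail559
  rw [← intervalIntegral.integral_Ioi_sub_Ioi' (h.integrableOn_Ioi a) (h.integrableOn_Ioi X)]
  ring

theorem IsProfile559.tail_hasDerivAt {Φ : ℝ → ℂ} {R : ℝ} (h : IsProfile559 Φ R) (X : ℝ) :
    HasDerivAt (tail559 Φ) (-Φ X) X := by
  have h1 : HasDerivAt (fun X => ∫ t in (0:ℝ)..X, Φ t) (Φ X) X :=
    intervalIntegral.integral_hasDerivAt_right (h.cont.intervalIntegrable _ _)
      (h.cont.stronglyMeasurableAtFilter _ _) h.cont.continuousAt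
  have h2 : tail559 Φ = fun X => tail559 Φ 0 - ∫ t in (0:ℝ)..X, Φ t := by
    funext X; exact h.tail_eq 0 X
  rw [h2]
  exact h1.const_sub (tail559 Φ 0)

theorem IsProfile559.tail_continuous {Φ : ℝ → ℂ} {R : ℝ} (h : IsProfile559 Φ R) :
    Continuous (tail559 Φ) :=
  continuous_iff_continuousAt.2 fun X => (h.tail_hasDerivAt X).continuousAt

theorem IsProfile559.tail_profile {Φ : ℝ → ℂ} {R : ℝ} (h : IsProfile559 Φ R) :
    IsProfile559 (tail559 Φ) R :=
  ⟨h.tail_continuous, fun _ hx => h.tail_zero hx⟩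

/-- **Exact radial integral**: `∫_{r > r₀} Φ(γ + A r²) r dr = Ψ(γ + A r₀²) / (2A)`. -/
theorem radial559 (Φ : ℝ → ℂ) {A r₀ : ℝ} (γ : ℝ) (hA : 0 < A) (hr : 0 ≤ r₀) :
    ∫ r in Ioi r₀, (r : ℂ) * Φ (γ + A * r ^ 2) = tail559 Φ (γ + A * r₀ ^ 2) / (2 * A) := by
  have himg : (fun r : ℝ => γ + A * r ^ 2) '' Ioi r₀ = Ioi (γ + A * r₀ ^ 2) := by
    ext y
    constructor
    · rintro ⟨r, hr', rfl⟩
      have hr'' : r₀ < r := hr'
      have : r₀ ^ 2 < r ^ 2 := by nlinarith
      show γ + A * r₀ ^ 2 < γ + A * r ^ 2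
      nlinarith
    · intro hy
      have hy' : γ + A * r₀ ^ 2 < y := hy
      have hpos : 0 ≤ (y - γ) / A := by
        apply div_nonneg _ hA.le
        nlinarith [sq_nonneg r₀]
      refine ⟨Real.sqrt ((y - γ) / A), ?_, ?_⟩
      · show r₀ < Real.sqrt ((y - γ) / A)
        apply Real.lt_sqrt_of_sq_lt
        rw [lt_div_iff₀ hA]
        nlinarith
      · show γ + A * Real.sqrt ((y - γ) / A) ^ 2 = y
        rw [Real.sq_sqrt hpos]
        field_simp
        ring
  have hinj : InjOn (fun r : ℝ => γ + A * r ^ 2) (Ioi r₀) := by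
    intro x hx y hy hxy
    have hx' : r₀ < x := hx
    have hy' : r₀ < y := hy
    have h1 : A * x ^ 2 = A * y ^ 2 := by simpa using hxy
    have h2 : x ^ 2 = y ^ 2 := mul_left_cancel₀ hA.ne' h1
    have hx0 : 0 ≤ x := hr.trans hx'.le
    have hy0 : 0 ≤ y := hr.trans hy'.le
    exact (sq_eq_sq₀ hx0 hy0).1 h2
  have hder : ∀ x ∈ Ioi r₀, HasDerivWithinAt (fun r : ℝ => γ + A * r ^ 2) (2 * A * x) (Ioi r₀) x := by
    intro x _
    have : HasDerivAt (fun r : ℝ => γ + A * r ^ 2) (A * (2 * x ^ 1 * 1)) x :=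
      ((hasDerivAt_id x).pow 2 |>.const_mul A).const_add γ
    have h2 : A * (2 * x ^ 1 * 1) = 2 * A * x := by ring
    rw [h2] at this
    exact this.hasDerivWithinAt
  have key := integral_image_eq_integral_abs_deriv_smul measurableSet_Ioi hder hinj Φ
  rw [himg] at key
  unfold tail559
  rw [key]
  have hcongr : ∫ x in Ioi r₀, |2 * A * x| • Φ (γ + A * x ^ 2)
      = ∫ x in Ioi r₀, ((2 * A : ℝ) : ℂ) * ((x : ℂ) * Φ (γ + A * x ^ 2)) := by
    apply setIntegral_congr_fun measurableSet_Ioi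
    intro x hx
    have hx' : r₀ < x := hx
    have hx0 : 0 ≤ x := hr.trans hx'.le
    have : |2 * A * x| = 2 * A * x := abs_of_nonneg (by positivity)
    simp only [this, Complex.real_smul]
    push_cast
    ring
  rw [hcongr, integral_const_mul]
  have hA' : (A : ℂ) ≠ 0 := by exact_mod_cast hA.ne'
  push_cast
  field_simp

/-- Integrability on a closed product region of a function continuous on it and vanishing on it
outside a compact set. -/
theorem integrableOn_prod559 {f : ℝ × ℝ → ℂ} {S K : Set (ℝ × ℝ)} (hS : IsClosed S)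
    (hK : IsCompact K) (hf : ContinuousOn f S) (h0 : ∀ p ∈ S, p ∉ K → f p = 0) :
    IntegrableOn f S (volume : Measure (ℝ × ℝ)) := by
  have h1 : IntegrableOn f (S ∩ K) (volume : Measure (ℝ × ℝ)) :=
    (hf.mono inter_subset_left).integrableOn_compact (hK.inter_left hS)
  refine h1.of_forall_sdiff_eq_zero hS.measurableSet ?_
  intro p hp
  exact h0 p hp.1 (fun hpK => hp.2 ⟨hp.1, hpK⟩)

end Fermat.Agent.LT.T6.H559
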