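import Fermat.Agent.LT.T6.H559.EllDown

/-!
# Row LT, tower T6, leaf T6.28 (ArchEllId) — the UPSTAIRS side (helper559, OFF-MAIN)

`∫_ℝ ∫_0^∞ Φ(cosh 4b + 2 cosh²(2b) sin²(θ/2) sinh²τ) 2 cosh²(2b) sinh τ dτ db
   = ∫_ℝ Ψ(cosh x) / (4 (cosh x - cos θ)) dx`,  `Ψ = ` tail integral of `Φ`.
-/

set_option autoImplicit false

open MeasureTheory Set Real Filter Topology

noncomputable section

namespace Fermat.Agent.LT.T6.H559

/-- The upstairs elliptic integral. -/
def ellUp559 (Φ : ℝ → ℂ) (θ : ℝ) : ℂ :=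
  ∫ b : ℝ, ∫ τ in Ioi (0 : ℝ),
    Φ (cosh (4 * b) + 2 * cosh (2 * b) ^ 2 * sin (θ / 2) ^ 2 * sinh τ ^ 2)
      * ((2 * cosh (2 * b) ^ 2 * sinh τ : ℝ) : ℂ)

/-- Substitution `y = √(c + a u²)` on `u > 1`. -/
theorem sqrt_subst559 (a c : ℝ) (ha : 0 < a) (hca : 0 < c + a) (g : ℝ → ℂ) :
    ∫ y in Ioi (Real.sqrt (c + a)), g y
      = ∫ u in Ioi (1 : ℝ), ((a * u / Real.sqrt (c + a * u ^ 2) : ℝ) : ℂ)
          * g (Real.sqrt (c + a * u ^ 2)) := by
  have hposarg : ∀ u : ℝ, 1 ≤ u → 0 < c + a * u ^ 2 := by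
    intro u hu
    have : 1 ≤ u ^ 2 := by nlinarith
    nlinarith
  have hder : ∀ u ∈ Ioi (1 : ℝ),
      HasDerivWithinAt (fun u => Real.sqrt (c + a * u ^ 2))
        (a * u / Real.sqrt (c + a * u ^ 2)) (Ioi 1) u := by
    intro u hu
    have hu1 : (1 : ℝ) ≤ u := le_of_lt hu
    have hne : c + a * u ^ 2 ≠ 0 := (hposarg u hu1).ne'
    have hsq : 0 < Real.sqrt (c + a * u ^ 2) := Real.sqrt_pos.2 (hposarg u hu1)
    have h1 : HasDerivAt (fun u : ℝ => c + a * u ^ 2) (2 * a * u) u := by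
      have h0 : HasDerivAt (fun u : ℝ => c + a * u ^ 2) (a * (2 * u ^ 1 * 1)) u :=
        ((hasDerivAt_id u).pow 2 |>.const_mul a).const_add c
      have h2 : a * (2 * u ^ 1 * 1) = 2 * a * u := by ring
      rw [h2] at h0
      exact h0
    have h2 := h1.sqrt hne
    have h3 : 2 * a * u / (2 * Real.sqrt (c + a * u ^ 2)) = a * u / Real.sqrt (c + a * u ^ 2) := by
      field_simp
    rw [h3] at h2
    exact h2.hasDerivWithinAt
  have hinj : InjOn (fun u => Real.sqrt (c + a * u ^ 2)) (Ioi (1 : ℝ)) := by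
    intro u hu v hv huv
    have hu1 : (1 : ℝ) < u := hu
    have hv1 : (1 : ℝ) < v := hv
    have h1 : c + a * u ^ 2 = c + a * v ^ 2 := by
      have := congrArg (fun t => t ^ 2) huv
      simp only at this
      rwa [Real.sq_sqrt (hposarg u hu1.le).le, Real.sq_sqrt (hposarg v hv1.le).le] at this
    have h2 : u ^ 2 = v ^ 2 := by
      have : a * u ^ 2 = a * v ^ 2 := by linarith
      exact mul_left_cancel₀ ha.ne' this
    exact (sq_eq_sq₀ (by linarith) (by linarith)).1 h2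
  have himg : (fun u => Real.sqrt (c + a * u ^ 2)) '' Ioi (1 : ℝ) = Ioi (Real.sqrt (c + a)) := by
    ext y
    constructor
    · rintro ⟨u, hu, rfl⟩
      have hu1 : (1 : ℝ) < u := hu
      show Real.sqrt (c + a) < Real.sqrt (c + a * u ^ 2)
      apply Real.sqrt_lt_sqrt hca.le
      have : 1 < u ^ 2 := by nlinarith
      nlinarith
    · intro hy
      have hy' : Real.sqrt (c + a) < y := hy
      have hy0 : 0 < y := lt_of_le_of_lt (Real.sqrt_nonneg _) hy'
      have hyy : c + a < y ^ 2 := by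
        have h1 := Real.sq_sqrt hca.le
        have h2 : Real.sqrt (c + a) ^ 2 < y ^ 2 := by
          have := Real.sqrt_nonneg (c + a)
          nlinarith
        linarith
      have hq : 1 < (y ^ 2 - c) / a := by
        rw [lt_div_iff₀ ha]
        linarith
      refine ⟨Real.sqrt ((y ^ 2 - c) / a), ?_, ?_⟩
      · show 1 < Real.sqrt ((y ^ 2 - c) / a)
        apply Real.lt_sqrt_of_sq_lt
        simpa using hq
      · show Real.sqrt (c + a * Real.sqrt ((y ^ 2 - c) / a) ^ 2) = y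
        rw [Real.sq_sqrt (by linarith)]
        have : c + a * ((y ^ 2 - c) / a) = y ^ 2 := by
          field_simp
          ring
        rw [this]
        exact Real.sqrt_sq hy0.le
  have key := integral_image_eq_integral_abs_deriv_smul measurableSet_Ioi hder hinj g
  rw [himg] at key
  rw [key]
  apply setIntegral_congr_fun measurableSet_Ioi
  intro u hu
  have hu1 : (1 : ℝ) < u := hu
  have hsq : 0 < Real.sqrt (c + a * u ^ 2) := Real.sqrt_pos.2 (hposarg u hu1.le)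
  have habs : |a * u / Real.sqrt (c + a * u ^ 2)| = a * u / Real.sqrt (c + a * u ^ 2) :=
    abs_of_pos (div_pos (mul_pos ha (by linarith)) hsq)
  simp only [habs, Complex.real_smul]

/-- The flat integrand upstairs. -/
def qUp559 (Φ : ℝ → ℂ) (θ : ℝ) (k r : ℝ) : ℂ :=
  Φ (cos θ + 2 * k ^ 2 + 2 * sin (θ / 2) ^ 2 * r ^ 2) * ((r / Real.sqrt (k ^ 2 + r ^ 2) : ℝ) : ℂ)

theorem cos_eq_half559 (θ : ℝ) : cos θ = 1 - 2 * sin (θ / 2) ^ 2 := by
  have h := cos_sq' (θ / 2)
  have h2 := cos_two_mul (θ / 2)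
  rw [show 2 * (θ / 2) = θ by ring] at h2
  rw [h2, h]
  ring

/-- Step 1: the inner integral in the variable `r`. -/
theorem up_inner559 (Φ : ℝ → ℂ) (θ b : ℝ) :
    ∫ τ in Ioi (0 : ℝ),
        Φ (cosh (4 * b) + 2 * cosh (2 * b) ^ 2 * sin (θ / 2) ^ 2 * sinh τ ^ 2)
          * ((2 * cosh (2 * b) ^ 2 * sinh τ : ℝ) : ℂ)
      = ((2 * cosh (2 * b) : ℝ) : ℂ) * ∫ r in Ioi (1 : ℝ), qUp559 Φ θ (sinh (2 * b)) r := by
  set m : ℝ := cosh (2 * b) with hm
  set k : ℝ := sinh (2 * b) with hk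
  have hm0 : 0 < m := cosh_pos _
  have hmk : m ^ 2 = k ^ 2 + 1 := cosh_sq (2 * b)
  have h4 : cosh (4 * b) = 2 * m ^ 2 - 1 := by
    rw [show (4 : ℝ) * b = 2 * (2 * b) by ring, cosh_two_mul, ← hm, ← hk]
    linarith
  -- first `u = cosh τ`
  have e1 : ∫ τ in Ioi (0 : ℝ),
        Φ (cosh (4 * b) + 2 * m ^ 2 * sin (θ / 2) ^ 2 * sinh τ ^ 2)
          * ((2 * m ^ 2 * sinh τ : ℝ) : ℂ)
      = ∫ u in Ioi (1 : ℝ), Φ (cosh (4 * b) + 2 * m ^ 2 * sin (θ / 2) ^ 2 * (u ^ 2 - 1))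
          * ((2 * m ^ 2 : ℝ) : ℂ) := by
    rw [subst_cosh559]
    apply setIntegral_congr_fun measurableSet_Ioi
    intro τ _
    simp only
    rw [show cosh τ ^ 2 - 1 = sinh τ ^ 2 by rw [cosh_sq]; ring]
    push_cast
    ring
  rw [e1]
  -- then `r = √(1 - m² + m² u²)`
  have e2 := sqrt_subst559 (m ^ 2) (1 - m ^ 2) (by positivity) (by norm_num)
    (fun r => ((2 * m : ℝ) : ℂ) * qUp559 Φ θ k r)
  rw [show (1 - m ^ 2 + m ^ 2 : ℝ) = 1 by ring, Real.sqrt_one] at e2
  rw [← integral_const_mul, e2]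
  apply setIntegral_congr_fun measurableSet_Ioi
  intro u hu
  have hu1 : (1 : ℝ) < u := hu
  have hu0 : 0 < u := by linarith
  have harg : 0 < 1 - m ^ 2 + m ^ 2 * u ^ 2 := by
    have : 1 < u ^ 2 := by nlinarith
    nlinarith [sq_nonneg m]
  beta_reduce
  set ru : ℝ := Real.sqrt (1 - m ^ 2 + m ^ 2 * u ^ 2) with hru
  have hru0 : 0 < ru := Real.sqrt_pos.2 harg
  have hru2 : ru ^ 2 = 1 - m ^ 2 + m ^ 2 * u ^ 2 := Real.sq_sqrt harg.le
  have hkr : Real.sqrt (k ^ 2 + ru ^ 2) = m * u := by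
    have hk2 : k ^ 2 = m ^ 2 - 1 := by linarith
    rw [hru2, show k ^ 2 + (1 - m ^ 2 + m ^ 2 * u ^ 2) = (m * u) ^ 2 by rw [hk2]; ring]
    exact Real.sqrt_sq (by positivity)
  simp only [qUp559]
  rw [hkr]
  have hargeq : cos θ + 2 * k ^ 2 + 2 * sin (θ / 2) ^ 2 * ru ^ 2
      = cosh (4 * b) + 2 * m ^ 2 * sin (θ / 2) ^ 2 * (u ^ 2 - 1) := by
    rw [hru2, h4, cos_eq_half559 θ]
    have : k ^ 2 = m ^ 2 - 1 := by linarith
    rw [this]
    ring
  rw [hargeq]
  have hm' : (m : ℂ) ≠ 0 := by exact_mod_cast hm0.ne'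
  have hu' : (u : ℂ) ≠ 0 := by exact_mod_cast hu0.ne'
  have hr' : (ru : ℂ) ≠ 0 := by exact_mod_cast hru0.ne'
  push_cast
  field_simp

/-- Step 2: the outer substitution `k = sinh 2b`. -/
theorem up_outer559 (H : ℝ → ℂ) :
    ∫ b : ℝ, ((2 * cosh (2 * b) : ℝ) : ℂ) * H (sinh (2 * b)) = ∫ k : ℝ, H k := by
  have hinj : InjOn (fun b : ℝ => sinh (2 * b)) univ := by
    intro x _ y _ hxy
    have := sinh_injective hxy
    linarith
  have himg : (fun b : ℝ => sinh (2 * b)) '' univ = univ := by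
    rw [image_univ]
    apply Function.Surjective.range_eq
    intro y
    obtain ⟨x, hx⟩ := sinh_surjective y
    exact ⟨x / 2, by show sinh (2 * (x / 2)) = y; rw [show 2 * (x / 2) = x by ring]; exact hx⟩
  have hder : ∀ x ∈ (univ : Set ℝ),
      HasDerivWithinAt (fun b : ℝ => sinh (2 * b)) (2 * cosh (2 * x)) univ x := by
    intro x _
    have h1 : HasDerivAt (fun b : ℝ => 2 * b) 2 x := by
      simpa using (hasDerivAt_id x).const_mul (2 : ℝ)
    have h2 := (hasDerivAt_sinh (2 * x)).comp x h1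
    have h3 : cosh (2 * x) * 2 = 2 * cosh (2 * x) := by ring
    rw [h3] at h2
    exact h2.hasDerivWithinAt
  have key := integral_image_eq_integral_abs_deriv_smul MeasurableSet.univ hder hinj H
  rw [himg] at key
  simp only [Measure.restrict_univ] at key
  rw [key]
  apply integral_congr_ae
  filter_upwards with b
  have habs : |2 * cosh (2 * b)| = 2 * cosh (2 * b) :=
    abs_of_pos (mul_pos (by norm_num) (cosh_pos _))
  simp only [habs, Complex.real_smul]

theorem half_sq_le_one559 (θ : ℝ) : sin (θ / 2) ^ 2 ≤ 1 := sin_sq_le_one _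

/-- Integrability of the flat integrand on `ℝ × (1, ∞)`. -/
theorem integrable_up1_559 {Φ : ℝ → ℂ} {R : ℝ} (hΦ : IsProfile559 Φ R) (θ : ℝ)
    (hs : sin (θ / 2) ≠ 0) :
    Integrable (Function.uncurry fun k r : ℝ => qUp559 Φ θ k r)
      ((volume : Measure ℝ).prod (volume.restrict (Ioi (1 : ℝ)))) := by
  have hm : (volume : Measure ℝ).prod (volume.restrict (Ioi (1 : ℝ)))
      = (volume : Measure (ℝ × ℝ)).restrict ((univ : Set ℝ) ×ˢ Ioi (1 : ℝ)) := by
    rw [Measure.volume_eq_prod, ← Measure.prod_restrict, Measure.restrict_univ]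
  rw [hm]
  set B : ℝ := |R| + 1 with hB
  have hB1 : 1 ≤ B := by have := abs_nonneg R; linarith
  have hs2 : 0 < sin (θ / 2) ^ 2 := by positivity
  have hs1 : sin (θ / 2) ^ 2 ≤ 1 := half_sq_le_one559 θ
  have hc1 : -1 ≤ cos θ := neg_one_le_cos θ
  have hS : IsClosed ((univ : Set ℝ) ×ˢ Ici (1 : ℝ)) := isClosed_univ.prod isClosed_Ici
  have hK : IsCompact (Icc (-B) B ×ˢ Icc (1 : ℝ) (B / sin (θ / 2) ^ 2)) :=
    isCompact_Icc.prod isCompact_Icc
  have hcont : ContinuousOn (Function.uncurry fun k r : ℝ => qUp559 Φ θ k r)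
      ((univ : Set ℝ) ×ˢ Ici (1 : ℝ)) := by
    unfold qUp559
    apply ContinuousOn.mul
    · apply Continuous.continuousOn
      exact hΦ.cont.comp (by fun_prop)
    · apply Complex.continuous_ofReal.comp_continuousOn
      apply ContinuousOn.div
      · exact continuous_snd.continuousOn
      · apply Continuous.continuousOn
        fun_prop
      · rintro ⟨k, r⟩ hp
        have hr : (1 : ℝ) ≤ r := hp.2
        have : 0 < k ^ 2 + r ^ 2 := by nlinarith [sq_nonneg k]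
        exact (Real.sqrt_pos.2 this).ne'
  have h0 : ∀ p ∈ (univ : Set ℝ) ×ˢ Ici (1 : ℝ),
      p ∉ Icc (-B) B ×ˢ Icc (1 : ℝ) (B / sin (θ / 2) ^ 2) →
      (Function.uncurry fun k r : ℝ => qUp559 Φ θ k r) p = 0 := by
    rintro ⟨k, r⟩ hp hpK
    have hr : (1 : ℝ) ≤ r := hp.2
    have hbig : R ≤ cos θ + 2 * k ^ 2 + 2 * sin (θ / 2) ^ 2 * r ^ 2 := by
      by_contra hlt
      rw [not_le] at hlt
      apply hpK
      have hRB : R ≤ B - 1 := by have := le_abs_self R; linarith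
      have hk2 : 2 * k ^ 2 < B := by nlinarith [sq_nonneg r, sq_nonneg k]
      have hr2 : 2 * sin (θ / 2) ^ 2 * r ^ 2 < B := by nlinarith [sq_nonneg r, sq_nonneg k]
      have hkB : |k| ≤ B := by
        by_contra h
        rw [not_le] at h
        have : B ^ 2 < k ^ 2 := by
          have := sq_lt_sq' (by linarith [abs_nonneg k] : -|k| < B) h
          rwa [sq_abs] at this
        nlinarith
      refine ⟨⟨(abs_le.1 hkB).1, (abs_le.1 hkB).2⟩, hr, ?_⟩
      rw [le_div_iff₀ hs2]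
      by_contra h
      rw [not_le] at h
      -- B < r s², so 2 s² r² > 2 B r ≥ 2 B ≥ B
      have h1 : B * r < r * sin (θ / 2) ^ 2 * r := by
        have := mul_lt_mul_of_pos_right h (by linarith : (0 : ℝ) < r)
        linarith
      nlinarith
    simp only [Function.uncurry, qUp559, hΦ.zero _ hbig, zero_mul]
  exact (integrableOn_prod559 hS hK hcont h0).mono_set
    (prod_mono (subset_refl _) Ioi_subset_Ici_self)

/-- Step 4: the ray substitution `k = r sinh(x/2)`. -/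
theorem up_ray559 (Φ : ℝ → ℂ) (θ r : ℝ) (hr : 0 < r) :
    ∫ k : ℝ, qUp559 Φ θ k r
      = ∫ x : ℝ, ((r / 2 : ℝ) : ℂ) * Φ (cos θ + (cosh x - cos θ) * r ^ 2) := by
  have hinj : InjOn (fun x : ℝ => r * sinh (x / 2)) univ := by
    intro x _ y _ hxy
    have := sinh_injective (mul_left_cancel₀ hr.ne' hxy)
    linarith
  have himg : (fun x : ℝ => r * sinh (x / 2)) '' univ = univ := by
    rw [image_univ]
    apply Function.Surjective.range_eq
    intro y
    obtain ⟨x, hx⟩ := sinh_surjective (y / r)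
    refine ⟨2 * x, ?_⟩
    show r * sinh (2 * x / 2) = y
    rw [show 2 * x / 2 = x by ring, hx]
    field_simp
  have hder : ∀ x ∈ (univ : Set ℝ),
      HasDerivWithinAt (fun x : ℝ => r * sinh (x / 2)) (r * (cosh (x / 2) / 2)) univ x := by
    intro x _
    have h1 : HasDerivAt (fun b : ℝ => b / 2) (1 / 2) x := by
      simpa using (hasDerivAt_id x).div_const (2 : ℝ)
    have h2 := (hasDerivAt_sinh (x / 2)).comp x h1
    have h3 : cosh (x / 2) * (1 / 2) = cosh (x / 2) / 2 := by ring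
    rw [h3] at h2
    exact (h2.const_mul r).hasDerivWithinAt
  have key := integral_image_eq_integral_abs_deriv_smul MeasurableSet.univ hder hinj
    (fun k => qUp559 Φ θ k r)
  rw [himg] at key
  simp only [Measure.restrict_univ] at key
  rw [key]
  apply integral_congr_ae
  filter_upwards with x
  have hch : 0 < cosh (x / 2) := cosh_pos _
  have habs : |r * (cosh (x / 2) / 2)| = r * (cosh (x / 2) / 2) :=
    abs_of_pos (by positivity)
  simp only [habs, Complex.real_smul, qUp559]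
  have hsq : Real.sqrt ((r * sinh (x / 2)) ^ 2 + r ^ 2) = r * cosh (x / 2) := by
    rw [show (r * sinh (x / 2)) ^ 2 + r ^ 2 = (r * cosh (x / 2)) ^ 2 by
      rw [mul_pow, mul_pow, cosh_sq (x / 2)]; ring]
    exact Real.sqrt_sq (by positivity)
  rw [hsq]
  have hcx : cosh x = 1 + 2 * sinh (x / 2) ^ 2 := by
    have := cosh_two_mul (x / 2)
    rw [show 2 * (x / 2) = x by ring] at this
    rw [this, cosh_sq (x / 2)]
    ring
  have harg : cos θ + 2 * (r * sinh (x / 2)) ^ 2 + 2 * sin (θ / 2) ^ 2 * r ^ 2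
      = cos θ + (cosh x - cos θ) * r ^ 2 := by
    rw [hcx]
    nth_rewrite 3 [cos_eq_half559 θ]
    ring
  rw [harg]
  have hr' : (r : ℂ) ≠ 0 := by exact_mod_cast hr.ne'
  have hc' : ((cosh (x / 2) : ℝ) : ℂ) ≠ 0 := by exact_mod_cast hch.ne'
  push_cast
  push_cast at hc'
  field_simp

theorem cosh_sub_cos_ge559 (θ x : ℝ) : 2 * sin (θ / 2) ^ 2 ≤ cosh x - cos θ := by
  have := one_le_cosh x
  rw [cos_eq_half559 θ]
  linarith

/-- Integrability of the ray integrand on `(1, ∞) × ℝ`. -/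
theorem integrable_up2_559 {Φ : ℝ → ℂ} {R : ℝ} (hΦ : IsProfile559 Φ R) (θ : ℝ)
    (hs : sin (θ / 2) ≠ 0) :
    Integrable (Function.uncurry fun r x : ℝ =>
        ((r / 2 : ℝ) : ℂ) * Φ (cos θ + (cosh x - cos θ) * r ^ 2))
      ((volume.restrict (Ioi (1 : ℝ))).prod (volume : Measure ℝ)) := by
  have hm : (volume.restrict (Ioi (1 : ℝ))).prod (volume : Measure ℝ)
      = (volume : Measure (ℝ × ℝ)).restrict (Ioi (1 : ℝ) ×ˢ (univ : Set ℝ)) := by
    rw [Measure.volume_eq_prod, ← Measure.prod_restrict, Measure.restrict_univ]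
  rw [hm]
  set B : ℝ := |R| + 1 with hB
  have hB1 : 1 ≤ B := by have := abs_nonneg R; linarith
  have hs2 : 0 < sin (θ / 2) ^ 2 := by positivity
  have hc1 : -1 ≤ cos θ := neg_one_le_cos θ
  have hS : IsClosed (Ici (1 : ℝ) ×ˢ (univ : Set ℝ)) := isClosed_Ici.prod isClosed_univ
  have hK : IsCompact (Icc (1 : ℝ) (B / sin (θ / 2) ^ 2) ×ˢ Icc (-B) B) :=
    isCompact_Icc.prod isCompact_Icc
  have hcont : ContinuousOn (Function.uncurry fun r x : ℝ =>
        ((r / 2 : ℝ) : ℂ) * Φ (cos θ + (cosh x - cos θ) * r ^ 2))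
      (Ici (1 : ℝ) ×ˢ (univ : Set ℝ)) := by
    apply Continuous.continuousOn
    apply Continuous.mul
    · fun_prop
    · exact hΦ.cont.comp (by fun_prop)
  have h0 : ∀ p ∈ Ici (1 : ℝ) ×ˢ (univ : Set ℝ),
      p ∉ Icc (1 : ℝ) (B / sin (θ / 2) ^ 2) ×ˢ Icc (-B) B →
      (Function.uncurry fun r x : ℝ =>
        ((r / 2 : ℝ) : ℂ) * Φ (cos θ + (cosh x - cos θ) * r ^ 2)) p = 0 := by
    rintro ⟨r, x⟩ hp hpK
    have hr : (1 : ℝ) ≤ r := hp.1
    have hA := cosh_sub_cos_ge559 θ x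
    have hA0 : 0 ≤ cosh x - cos θ := le_trans (by positivity) hA
    have hbig : R ≤ cos θ + (cosh x - cos θ) * r ^ 2 := by
      by_contra hlt
      rw [not_le] at hlt
      apply hpK
      have hRB : R ≤ B - 1 := by have := le_abs_self R; linarith
      have hr2 : 1 ≤ r ^ 2 := by nlinarith
      -- arg ≥ cosh x
      have h1 : cosh x ≤ cos θ + (cosh x - cos θ) * r ^ 2 := by
        nlinarith [mul_nonneg hA0 (sub_nonneg.2 hr2)]
      -- arg ≥ -1 + 2 s² r²
      have h2 : -1 + 2 * sin (θ / 2) ^ 2 * r ^ 2 ≤ cos θ + (cosh x - cos θ) * r ^ 2 := by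
        nlinarith [mul_le_mul_of_nonneg_right hA (sq_nonneg r)]
      refine ⟨⟨hr, ?_⟩, ?_⟩
      · rw [le_div_iff₀ hs2]
        by_contra h
        rw [not_le] at h
        have h3 : B * r < r * sin (θ / 2) ^ 2 * r := by
          have := mul_lt_mul_of_pos_right h (by linarith : (0 : ℝ) < r)
          linarith
        nlinarith
      · have h3 : |x| < B := by
          have := abs_lt_cosh559 x
          linarith
        exact ⟨(abs_lt.1 h3).1.le, (abs_lt.1 h3).2.le⟩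
    simp only [Function.uncurry, hΦ.zero _ hbig, mul_zero]
  exact (integrableOn_prod559 hS hK hcont h0).mono_set
    (prod_mono Ioi_subset_Ici_self (subset_refl _))

/-- **The upstairs side.** -/
theorem ellUp_eq559 {Φ : ℝ → ℂ} {R : ℝ} (hΦ : IsProfile559 Φ R) (θ : ℝ)
    (hs : sin (θ / 2) ≠ 0) :
    ellUp559 Φ θ = ∫ x : ℝ, ((1 / (4 * (cosh x - cos θ)) : ℝ) : ℂ) * tail559 Φ (cosh x) := by
  unfold ellUp559
  have h1 : ∫ b : ℝ, ∫ τ in Ioi (0 : ℝ),
        Φ (cosh (4 * b) + 2 * cosh (2 * b) ^ 2 * sin (θ / 2) ^ 2 * sinh τ ^ 2)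
          * ((2 * cosh (2 * b) ^ 2 * sinh τ : ℝ) : ℂ)
      = ∫ b : ℝ, ((2 * cosh (2 * b) : ℝ) : ℂ)
          * ∫ r in Ioi (1 : ℝ), qUp559 Φ θ (sinh (2 * b)) r := by
    apply integral_congr_ae
    filter_upwards with b
    exact up_inner559 Φ θ b
  rw [h1, up_outer559 (fun k => ∫ r in Ioi (1 : ℝ), qUp559 Φ θ k r),
    integral_integral_swap (integrable_up1_559 hΦ θ hs)]
  have h2 : ∫ r in Ioi (1 : ℝ), ∫ k : ℝ, qUp559 Φ θ k r
      = ∫ r in Ioi (1 : ℝ), ∫ x : ℝ,
          ((r / 2 : ℝ) : ℂ) * Φ (cos θ + (cosh x - cos θ) * r ^ 2) := by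
    apply setIntegral_congr_fun measurableSet_Ioi
    intro r hr
    have hr1 : (1 : ℝ) < r := hr
    exact up_ray559 Φ θ r (by linarith)
  rw [h2, integral_integral_swap (integrable_up2_559 hΦ θ hs)]
  apply integral_congr_ae
  filter_upwards with x
  have hA : 0 < cosh x - cos θ :=
    lt_of_lt_of_le (by positivity) (cosh_sub_cos_ge559 θ x)
  have hrad := radial559 Φ (A := cosh x - cos θ) (r₀ := 1) (cos θ) hA (by norm_num)
  have e : ∫ r in Ioi (1 : ℝ), ((r / 2 : ℝ) : ℂ) * Φ (cos θ + (cosh x - cos θ) * r ^ 2)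
      = (1 / 2 : ℂ) * ∫ r in Ioi (1 : ℝ), (r : ℂ) * Φ (cos θ + (cosh x - cos θ) * r ^ 2) := by
    rw [← integral_const_mul]
    apply setIntegral_congr_fun measurableSet_Ioi
    intro r _
    push_cast
    ring
  rw [e, hrad]
  rw [show cos θ + (cosh x - cos θ) * 1 ^ 2 = cosh x by ring]
  have hA' : ((cosh x - cos θ : ℝ) : ℂ) ≠ 0 := by exact_mod_cast hA.ne'
  push_cast at hA' ⊢
  field_simp
  ring

end Fermat.Agent.LT.T6.H559
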