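import Fermat.Agent.LT.T6.H559.EllCore
import Fermat.Agent.LT.T6.H781.EllSpec

/-!
# Row LT, tower T6, leaf T6.28 part (B): `H781.EllUpC` VERBATIM, UNCONDITIONAL (helper559)

OFF-MAIN.  Adapter from `ellUp_eq559` (`LT/T6/H559/EllUp.lean`) to the Prop `EllUpC` of the owner
helper781 (`LT/T6/H781/EllSpec.lean`, sha256 3217f43c6be3c854, byte-identical copy).
`EllDownC` is NOT used.
-/

set_option autoImplicit false

open MeasureTheory Set Real Filter Topology

noncomputable section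

namespace Fermat.Agent.LT.T6.H559

/-- Extension to `ℝ` of a profile given on `[1, ∞)`. -/
def ext559 (Φ : ℝ → ℂ) (x : ℝ) : ℂ := Φ (max x 1)

theorem ext_eq559 (Φ : ℝ → ℂ) {x : ℝ} (hx : 1 ≤ x) : ext559 Φ x = Φ x := by
  unfold ext559
  rw [max_eq_left hx]

theorem ext_profile559 {Φ : ℝ → ℂ} (h : H781.IsProfile Φ) : ∃ R, IsProfile559 (ext559 Φ) R := by
  obtain ⟨hc, R, hR⟩ := h
  refine ⟨max R 1, ?_, ?_⟩
  · have hmax : Continuous fun x : ℝ => max x 1 := continuous_id.max continuous_const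
    exact hc.comp_continuous hmax (fun x => le_max_right x 1)
  · intro x hx
    unfold ext559
    apply hR
    exact le_trans (le_max_left R 1) (hx.trans (le_max_left x 1))

theorem tail_ext559 (Φ : ℝ → ℂ) {X : ℝ} (hX : 1 ≤ X) :
    tail559 (ext559 Φ) X = H781.tailI Φ X := by
  unfold tail559 H781.tailI
  apply setIntegral_congr_fun measurableSet_Ioi
  intro t ht
  exact ext_eq559 Φ (hX.trans (le_of_lt ht))

/-- The argument of `Φ` upstairs is `≥ 1`. -/
theorem upArg_ge_one559 (θ β τ : ℝ) :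
    1 ≤ 2 * cosh β ^ 2 * (1 + sin (θ / 2) ^ 2 * sinh τ ^ 2) - 1 := by
  have h1 : 1 ≤ cosh β ^ 2 := by
    have := one_le_cosh β
    nlinarith
  have h2 : 0 ≤ sin (θ / 2) ^ 2 * sinh τ ^ 2 := by positivity
  nlinarith [mul_nonneg (by linarith : (0 : ℝ) ≤ cosh β ^ 2) h2]

/-- The integrand upstairs in the coordinates of helper781. -/
def fUp559 (Φ : ℝ → ℂ) (θ τ β : ℝ) : ℂ :=
  Φ (2 * cosh β ^ 2 * (1 + sin (θ / 2) ^ 2 * sinh τ ^ 2) - 1)
    * ((cosh β ^ 2 * sinh τ : ℝ) : ℂ)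

theorem integrable_fUp559 {Φ : ℝ → ℂ} {R : ℝ} (hΦ : IsProfile559 Φ R) (θ : ℝ)
    (hs : sin (θ / 2) ≠ 0) :
    Integrable (Function.uncurry fun τ β : ℝ => fUp559 Φ θ τ β)
      ((volume.restrict (Ioi (0 : ℝ))).prod (volume : Measure ℝ)) := by
  have hm : (volume.restrict (Ioi (0 : ℝ))).prod (volume : Measure ℝ)
      = (volume : Measure (ℝ × ℝ)).restrict (Ioi (0 : ℝ) ×ˢ (univ : Set ℝ)) := by
    rw [Measure.volume_eq_prod, ← Measure.prod_restrict, Measure.restrict_univ]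
  rw [hm]
  set B : ℝ := |R| + 1 with hB
  have hB1 : 1 ≤ B := by have := abs_nonneg R; linarith
  have hs2 : 0 < sin (θ / 2) ^ 2 := by positivity
  have hS : IsClosed (Ici (0 : ℝ) ×ˢ (univ : Set ℝ)) := isClosed_Ici.prod isClosed_univ
  have hK : IsCompact (Icc (0 : ℝ) (B / sin (θ / 2) ^ 2) ×ˢ Icc (-B) B) :=
    isCompact_Icc.prod isCompact_Icc
  have hcont : ContinuousOn (Function.uncurry fun τ β : ℝ => fUp559 Φ θ τ β)
      (Ici (0 : ℝ) ×ˢ (univ : Set ℝ)) := by
    apply Continuous.continuousOn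
    unfold fUp559
    apply Continuous.mul
    · exact hΦ.cont.comp (by fun_prop)
    · fun_prop
  have h0 : ∀ p ∈ Ici (0 : ℝ) ×ˢ (univ : Set ℝ),
      p ∉ Icc (0 : ℝ) (B / sin (θ / 2) ^ 2) ×ˢ Icc (-B) B →
      (Function.uncurry fun τ β : ℝ => fUp559 Φ θ τ β) p = 0 := by
    rintro ⟨τ, β⟩ hp hpK
    have hτ : (0 : ℝ) ≤ τ := hp.1
    have hbig : R ≤ 2 * cosh β ^ 2 * (1 + sin (θ / 2) ^ 2 * sinh τ ^ 2) - 1 := by
      by_contra hlt
      rw [not_le] at hlt
      apply hpK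
      have hRB : R ≤ B - 1 := by have := le_abs_self R; linarith
      have hc1 : 1 ≤ cosh β := one_le_cosh β
      have hc2 : 1 ≤ cosh β ^ 2 := by nlinarith
      have hq : 0 ≤ sin (θ / 2) ^ 2 * sinh τ ^ 2 := by positivity
      -- arg ≥ cosh β
      have h1 : cosh β ≤ 2 * cosh β ^ 2 * (1 + sin (θ / 2) ^ 2 * sinh τ ^ 2) - 1 := by
        nlinarith [mul_nonneg (by linarith : (0 : ℝ) ≤ cosh β ^ 2) hq]
      -- arg ≥ 1 + 2 s² sinh² τ ≥ 2 s² τ²
      have hsinh : τ ≤ sinh τ := self_le_sinh_iff.2 hτ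
      have hsinh2 : τ ^ 2 ≤ sinh τ ^ 2 := by nlinarith
      have h2 : 2 * sin (θ / 2) ^ 2 * τ ^ 2
          ≤ 2 * cosh β ^ 2 * (1 + sin (θ / 2) ^ 2 * sinh τ ^ 2) - 1 := by
        have h3 : sin (θ / 2) ^ 2 * τ ^ 2 ≤ sin (θ / 2) ^ 2 * sinh τ ^ 2 :=
          mul_le_mul_of_nonneg_left hsinh2 hs2.le
        nlinarith [mul_nonneg (sub_nonneg.2 hc2) hq]
      refine ⟨⟨hτ, ?_⟩, ?_⟩
      · rw [le_div_iff₀ hs2]
        by_contra h
        rw [not_le] at h
        have hτ0 : 0 < τ := by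
          by_contra h0
          have : τ = 0 := le_antisymm (not_lt.1 h0) hτ
          rw [this] at h
          linarith
        have h3 : B * τ < τ * sin (θ / 2) ^ 2 * τ := by
          have := mul_lt_mul_of_pos_right h hτ0
          linarith
        have hs1 : sin (θ / 2) ^ 2 ≤ 1 := sin_sq_le_one _
        have hτ1 : 1 ≤ τ := by
          by_contra h1'
          rw [not_le] at h1'
          nlinarith
        nlinarith
      · have h3 : |β| < B := by
          have := abs_lt_cosh559 β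
          linarith
        exact ⟨(abs_lt.1 h3).1.le, (abs_lt.1 h3).2.le⟩
    simp only [Function.uncurry, fUp559, hΦ.zero _ hbig, zero_mul]
  exact (integrableOn_prod559 hS hK hcont h0).mono_set
    (prod_mono Ioi_subset_Ici_self (subset_refl _))

/-- The upstairs integral of helper781 equals `ellUp559`. -/
theorem ellUp781_eq559 {Φ : ℝ → ℂ} {R : ℝ} (hΦ : IsProfile559 Φ R) (θ : ℝ)
    (hs : sin (θ / 2) ≠ 0) :
    (∫ τ in Ioi (0 : ℝ), ∫ β : ℝ, fUp559 Φ θ τ β) = ellUp559 Φ θ := by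
  rw [integral_integral_swap (integrable_fUp559 hΦ θ hs)]
  unfold ellUp559
  have h2 := Measure.integral_comp_mul_left (fun β : ℝ => ∫ τ in Ioi (0 : ℝ), fUp559 Φ θ τ β) 2
  have h3 : ∫ b : ℝ, ∫ τ in Ioi (0 : ℝ),
        Φ (cosh (4 * b) + 2 * cosh (2 * b) ^ 2 * sin (θ / 2) ^ 2 * sinh τ ^ 2)
          * ((2 * cosh (2 * b) ^ 2 * sinh τ : ℝ) : ℂ)
      = (2 : ℂ) * ∫ b : ℝ, (fun β : ℝ => ∫ τ in Ioi (0 : ℝ), fUp559 Φ θ τ β) (2 * b) := by
    rw [← integral_const_mul]
    apply integral_congr_ae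
    filter_upwards with b
    rw [← integral_const_mul]
    apply setIntegral_congr_fun measurableSet_Ioi
    intro τ _
    beta_reduce
    unfold fUp559
    have h4 : cosh (4 * b) = 2 * cosh (2 * b) ^ 2 - 1 := by
      rw [show (4 : ℝ) * b = 2 * (2 * b) by ring, cosh_two_mul, cosh_sq (2 * b)]
      ring
    rw [h4, show 2 * cosh (2 * b) ^ 2 - 1 + 2 * cosh (2 * b) ^ 2 * sin (θ / 2) ^ 2 * sinh τ ^ 2
        = 2 * cosh (2 * b) ^ 2 * (1 + sin (θ / 2) ^ 2 * sinh τ ^ 2) - 1 by ring]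
    push_cast
    ring
  rw [h3, h2]
  have : |(2 : ℝ)⁻¹| = 2⁻¹ := abs_of_pos (by norm_num)
  rw [this, Complex.real_smul]
  push_cast
  ring

/-- `∫_ℝ h = 2 ∫_{x>0} h` for an even integrable function. -/
theorem integral_even559 {h : ℝ → ℂ} (hint : Integrable h) (heven : ∀ x, h (-x) = h x) :
    ∫ x : ℝ, h x = 2 * ∫ x in Ioi (0 : ℝ), h x := by
  have h1 := intervalIntegral.integral_Iic_add_Ioi (b := (0 : ℝ)) hint.integrableOn
    hint.integrableOn
  have h2 : ∫ x in Iic (0 : ℝ), h x = ∫ x in Ioi (0 : ℝ), h x := by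
    have := integral_comp_neg_Ioi (0 : ℝ) h
    rw [neg_zero] at this
    rw [← this]
    apply setIntegral_congr_fun measurableSet_Ioi
    intro x _
    exact heven x
  rw [← h1, h2]
  ring

/-- **T6.28 (B)** `EllUpC` of helper781, VERBATIM, unconditional. -/
theorem ellUpC559 : H781.EllUpC := by
  intro Φ hΦ θ hθ
  obtain ⟨R, hP⟩ := ext_profile559 hΦ
  have hs : sin (θ / 2) ≠ 0 := by
    intro h0
    apply hθ
    have := sin_two_mul (θ / 2)
    rw [show 2 * (θ / 2) = θ by ring] at this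
    rw [this, h0]
    ring
  have hbpos : ∀ x : ℝ, 0 < cosh x - cos θ := fun x =>
    lt_of_lt_of_le (by positivity) (cosh_sub_cos_ge559 θ x)
  -- step a: replace Φ by its extension
  have ha : H781.ellUp Φ θ = ∫ τ in Ioi (0 : ℝ), ∫ β : ℝ, fUp559 (ext559 Φ) θ τ β := by
    unfold H781.ellUp fUp559
    apply setIntegral_congr_fun measurableSet_Ioi
    intro τ _
    apply integral_congr_ae
    filter_upwards with β
    rw [ext_eq559 Φ (upArg_ge_one559 θ β τ)]
  rw [ha, ellUp781_eq559 hP θ hs, ellUp_eq559 hP θ hs]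
  -- step e: evenness
  have hint : Integrable (fun x : ℝ => ((1 / (4 * (cosh x - cos θ)) : ℝ) : ℂ)
      * tail559 (ext559 Φ) (cosh x)) := by
    apply integrable_kernel559 hP
    exact continuous_const.div (by fun_prop) (fun x => (mul_pos (by norm_num) (hbpos x)).ne')
  rw [integral_even559 hint (by intro x; simp only [cosh_neg])]
  unfold H781.ellKer
  rw [← integral_const_mul, ← integral_const_mul]
  apply setIntegral_congr_fun measurableSet_Ioi
  intro v _
  beta_reduce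
  rw [tail_ext559 Φ (one_le_cosh v)]
  have hb' : ((cosh v - cos θ : ℝ) : ℂ) ≠ 0 := by exact_mod_cast (hbpos v).ne'
  rw [Complex.ofReal_div]
  push_cast at hb' ⊢
  field_simp
  ring

end Fermat.Agent.LT.T6.H559
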